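import Fermat.Agent.Two.Brandt.Setup
import Fermat.Agent.Two.Brandt.Reduced
import Mathlib.LinearAlgebra.FreeModule.PID

/-!
# The Hecke algebra attached to an auxiliary curve

The `ℤ`-algebra of functions on the class set generated by the operators at the good primes and at
the auxiliary primes, and the statement of its seed modulo two.
-/

set_option autoImplicit false

noncomputable section

namespace Fermat.Agent.Two.Eigen

open Brandt Brandt.Param IsLocalRing

variable {W : WeierstrassCurve ℤ} {V : Finset ℕ}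

/-- The primes of the Hecke operators. -/
abbrev GoodIdx (W : WeierstrassCurve ℤ) (V : Finset ℕ) : Type :=
  {l : Nat.Primes // W.IsGoodPrimeFor l ∧ (l : ℕ) ≠ 2 ∧ (l : ℕ) ∉ V}

/-- The primes of the involutions. -/
abbrev AuxIdx (V : Finset ℕ) : Type := {v : Nat.Primes // (v : ℕ) ∈ V}

variable (S : Setup W V)

/-- The level. -/
abbrev lvl : S.P.Sub := stdSub S.P

theorem lvl_bad : (lvl S).bad = ∅ := rfl

/-- The generators. -/
def gens : GoodIdx W V ⊕ AuxIdx V → Module.End ℤ (Cls (lvl S).level → ℤ) :=
  Sum.elim (fun l => Corr.op ℤ ((lvl S).cellOp l.1 1).corr)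
    fun v => Corr.op ℤ ((lvl S).cellOp v.1 1).corr

/-- The Hecke algebra. -/
def hecke : Subalgebra ℤ (Module.End ℤ (Cls (lvl S).level → ℤ)) :=
  Algebra.adjoin ℤ (Set.range (gens S))

/-- A generator as an element of the algebra. -/
def gen (i : GoodIdx W V ⊕ AuxIdx V) : hecke S :=
  ⟨gens S i, Algebra.subset_adjoin ⟨i, rfl⟩⟩

theorem isSplitAt_good (hΔ : W.Δ ≠ 0) (hV : ∀ v ∈ V, v.Prime) (l : GoodIdx W V) :
    S.P.IsSplitAt l.1 :=
  isSplitAt (S.not_dvd hΔ hV l.2.1 l.2.2.2).1 (S.not_dvd hΔ hV l.2.1 l.2.2.2).2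

/-- The standing hypotheses. -/
structure Hyp (W : WeierstrassCurve ℤ) (V : Finset ℕ) : Prop where
  ne_zero : W.Δ ≠ 0
  prime : ∀ v ∈ V, v.Prime

variable (h : Hyp W V)

include h in
theorem commute_gens (i j : GoodIdx W V ⊕ AuxIdx V) : Commute (gens S i) (gens S j) := by
  have key : ∀ k : GoodIdx W V ⊕ AuxIdx V,
      S.P.IsSplitAt (Sum.elim (fun l => l.1) (fun v => v.1) k) ∨
        S.P.IsSpecial (Sum.elim (fun l => l.1) (fun v => v.1) k) := by
    rintro (l | v)
    · exact Or.inl (isSplitAt_good S h.ne_zero h.prime l)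
    · exact Or.inr (S.special v.1 v.2)
  have := Sub.commute_op_cellOp_one (O := ℤ) (lvl_bad S) (key i) (key j)
  rcases i with l | v <;> rcases j with l' | v' <;> exact this

include h in
theorem commute_hecke : ∀ a ∈ hecke S, ∀ b ∈ hecke S, Commute a b := by
  intro a ha b hb
  refine Algebra.adjoin_induction (fun y hy => ?_) (fun r => Algebra.commute_algebraMap_right r a)
    (fun _ _ _ _ h1 h2 => h1.add_right h2) (fun _ _ _ _ h1 h2 => h1.mul_right h2) hb
  obtain ⟨j, rfl⟩ := hy
  refine Algebra.adjoin_induction (fun x hx => ?_) (fun r => Algebra.commute_algebraMap_left r _)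
    (fun _ _ _ _ h1 h2 => h1.add_left h2) (fun _ _ _ _ h1 h2 => h1.mul_left h2) ha
  obtain ⟨i, rfl⟩ := hx
  exact commute_gens S h i j

/-- The Hecke algebra as a commutative ring. -/
@[reducible] def commRingHecke : CommRing (hecke S) :=
  { (inferInstance : Ring (hecke S)) with
    mul_comm := fun a b => Subtype.ext (commute_hecke S h a a.2 b b.2) }

theorem finite_hecke : Module.Finite ℤ (hecke S) := by
  have : Fintype (Cls (lvl S).level) := Fintype.ofFinite _
  classical
  exact Module.Finite.of_fg (IsNoetherian.noetherian (hecke S).toSubmodule)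

theorem free_hecke : Module.Free ℤ (hecke S) := by
  have : Fintype (Cls (lvl S).level) := Fintype.ofFinite _
  classical
  exact Module.Free.of_basis (Module.Free.chooseBasis ℤ (hecke S).toSubmodule)

include h in
theorem isReduced_hecke : _root_.IsReduced (hecke S) := by
  obtain ⟨l, hl, hl12⟩ := S.exists_ramified
  exact Sub.isReduced_adjoin_cellOp (Λ := lvl S) hl hl12 (lvl_bad S) (O := ℤ) (fun l : GoodIdx W V => l.1)
    (fun v : AuxIdx V => v.1) (fun l => isSplitAt_good S h.ne_zero h.prime l)
    fun v => S.special v.1 v.2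

/-- **The seed**: a surjection to a local ring of characteristic two with at least `2 ^ d` elements
sending the operators at good primes to `a_l` and the involutions to `1` modulo the maximal
ideal. -/
def HasSeed (d : ℕ) : Prop :=
  ∃ (B : Type) (_ : CommRing B) (_ : IsLocalRing B) (_ : Finite B) (_ : CharP B 2)
    (θ : hecke S →+* B),
    Function.Surjective θ ∧ 2 ^ d ≤ Nat.card B ∧
      (∀ l : GoodIdx W V,
        θ (gen S (Sum.inl l)) - (W.apOfModel l.1 : B) ∈ maximalIdeal B) ∧
      ∀ v : AuxIdx V, θ (gen S (Sum.inr v)) - 1 ∈ maximalIdeal B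

end Fermat.Agent.Two.Eigen

end
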