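import Mathlib.Analysis.Complex.Polynomial.Basic
import Mathlib.LinearAlgebra.FreeModule.Finite.Basic
import Mathlib.LinearAlgebra.TensorProduct.Tower
import Mathlib.RingTheory.Artinian.Module
import Mathlib.RingTheory.Artinian.Ring
import Mathlib.RingTheory.Localization.BaseChange
import Mathlib.RingTheory.Unramified.Field
import Mathlib.RingTheory.Unramified.Pi
import Mathlib.RingTheory.Valuation.LocalSubring
import Mathlib.RingTheory.Valuation.Integers
import Mathlib.FieldTheory.Perfect
import Mathlib.Algebra.CharP.Algebra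
import Mathlib.Algebra.Algebra.ZMod
import Mathlib.Algebra.Field.ZMod
import Mathlib.FieldTheory.Finiteness

/-!
# Counting congruent complex points

A reduced finite free ring over `ℤ` with a surjection onto a local ring `B` of characteristic two,
residue field of two elements and at least `2 ^ d` elements has at least `d` homomorphisms to `ℂ`
congruent to the residual character, for one valuation subring of `ℂ` over `2`.
-/

set_option autoImplicit false

noncomputable section

open scoped TensorProduct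

namespace Fermat.Agent.Two.Eigen

open IsLocalRing

/-- A valuation subring of `ℂ` over `2`. -/
theorem exists_valuationSubring_two : ∃ A : ValuationSubring ℂ, (2 : ℂ) ∈ A.nonunits := by
  set R : Subring ℂ := (Int.castRingHom ℂ).range
  let x : R := ⟨(2 : ℂ), 2, by simp⟩
  have hne : Ideal.span {x} ≠ ⊤ := by
    rw [Ne, Ideal.span_singleton_eq_top]
    rintro ⟨u, hu⟩
    obtain ⟨m, hm⟩ := (↑u⁻¹ : R).2
    have h1 : (2 : ℂ) * (m : ℂ) = 1 := by
      have := congrArg Subtype.val u.mul_inv
      rw [hu] at this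
      simpa [x, ← hm] using this
    have h2 : (2 : ℤ) * m = 1 := by exact_mod_cast h1
    omega
  obtain ⟨A, -, hA⟩ := Ideal.image_subset_nonunits_valuationSubring _ hne
  exact ⟨A, hA ⟨x, Ideal.subset_span rfl, rfl⟩⟩

variable (T : Type*) [CommRing T] [Module.Free ℤ T] [Module.Finite ℤ T]

/-- A reduced finite free ring stays reduced over `ℂ`. -/
theorem isReduced_complex_tensor [IsReduced T] : IsReduced (ℂ ⊗[ℤ] T) := by
  have hE : IsReduced (ℚ ⊗[ℤ] T) := by
    refine ⟨fun x hx => ?_⟩
    obtain ⟨k, hk⟩ := hx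
    obtain ⟨n, t, hn, hnt⟩ : ∃ (n : ℤ) (t : T), n ≠ 0 ∧
        ((n : ℚ) • x : ℚ ⊗[ℤ] T) = 1 ⊗ₜ t := by
      clear hk
      induction x using TensorProduct.induction_on with
      | zero => exact ⟨1, 0, one_ne_zero, by simp⟩
      | tmul q t =>
        refine ⟨q.den, q.num • t, Int.natCast_ne_zero.mpr q.den_nz, ?_⟩
        rw [Int.cast_natCast, TensorProduct.smul_tmul', smul_eq_mul, mul_comm, Rat.mul_den_eq_num,
          ← TensorProduct.smul_tmul, zsmul_one]
      | add x y hx hy =>
        obtain ⟨n, t, hn, hnt⟩ := hx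
        obtain ⟨m, s, hm, hms⟩ := hy
        refine ⟨n * m, m • t + n • s, mul_ne_zero hn hm, ?_⟩
        rw [TensorProduct.tmul_add, TensorProduct.tmul_smul, TensorProduct.tmul_smul, ← hnt, ← hms,
          Int.cast_mul, smul_add, ← Int.cast_smul_eq_zsmul ℚ m, ← Int.cast_smul_eq_zsmul ℚ n,
          smul_smul, smul_smul, mul_comm (m : ℚ)]
    have ht : t = 0 := by
      have h0 : (1 : ℚ) ⊗ₜ[ℤ] (t ^ k) = 0 := by
        rw [show (1 : ℚ) ⊗ₜ[ℤ] (t ^ k) = (1 ⊗ₜ[ℤ] t : ℚ ⊗[ℤ] T) ^ k by
          rw [Algebra.TensorProduct.tmul_pow, one_pow], ← hnt, smul_pow, hk, smul_zero]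
      exact IsReduced.eq_zero t ⟨k, Algebra.TensorProduct.includeRight_injective
        (R := ℤ) (A := ℚ) (B := T) (Int.cast_injective) (by simpa using h0)⟩
    rw [ht, TensorProduct.tmul_zero] at hnt
    exact (smul_eq_zero.mp hnt).resolve_left (Int.cast_ne_zero.mpr hn)
  have : Module.Finite ℚ (ℚ ⊗[ℤ] T) := Module.Finite.base_change ℤ ℚ T
  have : IsArtinianRing (ℚ ⊗[ℤ] T) := IsArtinianRing.of_finite ℚ _
  have : Algebra.FormallyUnramified ℚ (ℚ ⊗[ℤ] T) := by
    let e : (ℚ ⊗[ℤ] T) ≃ₐ[ℚ] ∀ I : MaximalSpectrum (ℚ ⊗[ℤ] T), (ℚ ⊗[ℤ] T) ⧸ I.asIdeal :=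
      AlgEquiv.ofBijective
        (AlgHom.pi fun I => Ideal.Quotient.mkₐ ℚ I.asIdeal)
        (IsArtinianRing.equivPi (ℚ ⊗[ℤ] T)).bijective
    have : ∀ I : MaximalSpectrum (ℚ ⊗[ℤ] T),
        Algebra.FormallyUnramified ℚ ((ℚ ⊗[ℤ] T) ⧸ I.asIdeal) := fun I => by
      have := I.isMaximal
      let _ := Ideal.Quotient.field I.asIdeal
      exact Algebra.FormallyUnramified.of_isSeparable ℚ _
    exact Algebra.FormallyUnramified.of_equiv (R := ℚ)
      (A := ∀ I : MaximalSpectrum (ℚ ⊗[ℤ] T), (ℚ ⊗[ℤ] T) ⧸ I.asIdeal) e.symm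
  have : IsReduced (ℂ ⊗[ℚ] (ℚ ⊗[ℤ] T)) := Algebra.FormallyUnramified.isReduced_of_field ℂ (ℂ ⊗[ℚ] (ℚ ⊗[ℤ] T))
  exact isReduced_of_injective (Algebra.TensorProduct.cancelBaseChange ℤ ℚ ℂ ℂ T).symm
    (Algebra.TensorProduct.cancelBaseChange ℤ ℚ ℂ ℂ T).symm.injective

variable {T}

/-- The evaluation of a tensor at a complex point. -/
def evalAt {R : Type*} [CommRing R] (f : R →+* ℂ) (l : T →+* ℂ) : R ⊗[ℤ] T →ₐ[ℤ] ℂ :=
  Algebra.TensorProduct.productMap f.toIntAlgHom l.toIntAlgHom

theorem evalAt_tmul {R : Type*} [CommRing R] (f : R →+* ℂ) (l : T →+* ℂ) (r : R) (t : T) :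
    evalAt f l (r ⊗ₜ t) = f r * l t :=
  Algebra.TensorProduct.productMap_apply_tmul _ _ _ _

/-- The complex points separate the tensors over `ℂ`. -/
theorem eq_zero_of_evalAt [IsReduced T] {y : ℂ ⊗[ℤ] T}
    (h : ∀ l : T →+* ℂ, evalAt (RingHom.id ℂ) l y = 0) : y = 0 := by
  have := isReduced_complex_tensor T
  have : Module.Finite ℂ (ℂ ⊗[ℤ] T) := Module.Finite.base_change ℤ ℂ T
  have : IsArtinianRing (ℂ ⊗[ℤ] T) := IsArtinianRing.of_finite ℂ _
  refine IsReduced.eq_zero y (nilpotent_iff_mem_prime.mpr fun Q hQ => ?_)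
  have : Q.IsMaximal := IsArtinianRing.isMaximal_of_isPrime Q
  let _ := Ideal.Quotient.field Q
  have : Algebra.IsAlgebraic ℂ ((ℂ ⊗[ℤ] T) ⧸ Q) := Algebra.IsAlgebraic.of_finite ℂ _
  let χ : (ℂ ⊗[ℤ] T) ⧸ Q →ₐ[ℂ] ℂ := IsAlgClosed.lift
  let π : ℂ ⊗[ℤ] T →ₐ[ℂ] ℂ := χ.comp (Ideal.Quotient.mkₐ ℂ Q)
  have e : ∀ z, π z = evalAt (RingHom.id ℂ)
      (π.toRingHom.comp (Algebra.TensorProduct.includeRight (R := ℤ) (A := ℂ)).toRingHom) z := by
    intro z
    induction z using TensorProduct.induction_on with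
    | zero => simp
    | tmul c t =>
      rw [evalAt_tmul, RingHom.id_apply, ← mul_one c, ← smul_eq_mul, ← TensorProduct.smul_tmul',
        map_smul, smul_eq_mul, smul_eq_mul, mul_one]
      rfl
    | add a b ha hb => rw [map_add, map_add, ha, hb]
  have h0 : π y = 0 := by rw [e]; exact h _
  exact Ideal.Quotient.eq_zero_iff_mem.mp ((RingHom.injective χ.toRingHom) (by
    rw [map_zero]; exact h0))

/-- The complex points form a finite set. -/
theorem finite_points : Finite (T →+* ℂ) := by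
  let b := Module.Free.chooseBasis ℤ T
  choose p hp hp0 using fun i => Algebra.IsIntegral.isIntegral (R := ℤ) (b i)
  have hroot : ∀ (l : T →+* ℂ) i,
      l (b i) ∈ ((p i).map (algebraMap ℤ ℂ)).roots.toFinset := by
    intro l i
    rw [Multiset.mem_toFinset, Polynomial.mem_roots ((hp i).map _).ne_zero, Polynomial.IsRoot,
      Polynomial.eval_map, ← Polynomial.aeval_def]
    have e := Polynomial.aeval_algHom_apply l.toIntAlgHom (b i) (p i)
    rw [Polynomial.aeval_def (b i), hp0, map_zero] at e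
    exact e
  refine Finite.of_injective (β := ∀ i, ((p i).map (algebraMap ℤ ℂ)).roots.toFinset)
    (fun l i => ⟨l (b i), hroot l i⟩) fun l l' h => ?_
  have he : l.toAddMonoidHom.toIntLinearMap = l'.toAddMonoidHom.toIntLinearMap :=
    b.ext fun i => congrArg Subtype.val (congrFun h i)
  exact RingHom.ext fun t => LinearMap.congr_fun he t

/-- Integral elements lie in every valuation subring. -/
theorem map_mem (A : ValuationSubring ℂ) (l : T →+* ℂ) (t : T) : l t ∈ A := by
  have h : IsIntegral A (l t) :=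
    ((Algebra.IsIntegral.isIntegral (R := ℤ) t).map l.toIntAlgHom).tower_top
  obtain ⟨y, hy⟩ := IsIntegrallyClosed.isIntegral_iff.mp h
  exact hy ▸ y.2

variable [IsReduced T] {B : Type*} [CommRing B] [IsLocalRing B] [Finite B] [CharP B 2]

/-- The congruent points are at least `d` in number. -/
theorem le_card_points [Fintype (T →+* ℂ)] (A : ValuationSubring ℂ) {k : Type} [Field k]
    [CharP k 2] (res : A →+* k) (hres : ∀ x : A, res x = 0 ↔ (x : ℂ) ∈ A.nonunits)
    (θ : T →+* B) (hθ : Function.Surjective θ) (d : ℕ) (hd : 2 ^ d ≤ Nat.card B)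
    [DecidablePred fun l : T →+* ℂ => ∀ (t : T) (a : ℤ),
      θ t - (a : B) ∈ maximalIdeal B → l t - (a : ℂ) ∈ A.nonunits] :
    d ≤ (Finset.univ.filter fun l : T →+* ℂ => ∀ (t : T) (a : ℤ),
      θ t - (a : B) ∈ maximalIdeal B → l t - (a : ℂ) ∈ A.nonunits).card := by
  classical
  let S : Finset (T →+* ℂ) := Finset.univ.filter fun l => ∀ (t : T) (a : ℤ),
    θ t - (a : B) ∈ maximalIdeal B → l t - (a : ℂ) ∈ A.nonunits
  show d ≤ S.card
  by_contra! hlt
  -- a basis of `B` over the prime field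
  let _ : Algebra (ZMod 2) B := ZMod.algebra B 2
  have : Fact (Nat.Prime 2) := ⟨Nat.prime_two⟩
  have : Module.Finite (ZMod 2) B := Module.Finite.of_finite
  let bB := Module.finBasis (ZMod 2) B
  have hr : d ≤ Module.finrank (ZMod 2) B := by
    rw [Module.natCard_eq_pow_finrank (K := ZMod 2), Nat.card_zmod] at hd
    exact (Nat.pow_le_pow_iff_right (by norm_num)).mp hd
  choose x hx using fun i : Fin d => hθ (bB (Fin.castLE hr i))
  -- a normalised relation between the values at the congruent points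
  obtain ⟨c, hc, j₀, hj₀⟩ : ∃ c : Fin d → ℂ, (∀ l ∈ S, ∑ i, c i * l (x i) = 0) ∧ ∃ i, c i ≠ 0 := by
    have hdep : ¬ LinearIndependent ℂ (fun i : Fin d => fun l : S => (l : T →+* ℂ) (x i)) := by
      intro h
      have := h.fintype_card_le_finrank
      rw [Module.finrank_fintype_fun_eq_card, Fintype.card_coe, Fintype.card_fin] at this
      omega
    obtain ⟨c, hc, hne⟩ := Fintype.not_linearIndependent_iff.mp hdep
    refine ⟨c, fun l hl => ?_, hne⟩
    simpa [Finset.sum_apply] using congrFun hc ⟨l, hl⟩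
  have : Nonempty (Fin d) := ⟨j₀⟩
  obtain ⟨j, hj⟩ := Finite.exists_max fun i => A.valuation (c i)
  have hcj : c j ≠ 0 := fun h => by
    have := hj j₀
    rw [h, map_zero, le_zero_iff, map_eq_zero] at this
    exact hj₀ this
  have hmem : ∀ i, c i / c j ∈ A := fun i => by
    rw [← ValuationSubring.valuation_le_one_iff, map_div₀]
    exact div_le_one_of_le₀ (hj i) zero_le
  let a : Fin d → A := fun i => ⟨c i / c j, hmem i⟩
  let Θ : A ⊗[ℤ] T →ₐ[ℤ] k ⊗[ℤ] B :=
    Algebra.TensorProduct.map res.toIntAlgHom θ.toIntAlgHom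
  let y : A ⊗[ℤ] T := ∑ i, a i ⊗ₜ x i
  have hy : ∀ l ∈ S, evalAt A.subtype l y = 0 := fun l hl => by
    have := congrArg (· / c j) (hc l hl)
    simp only [y, map_sum, evalAt_tmul, a, zero_div, Finset.sum_div] at this ⊢
    rw [← this]
    exact Finset.sum_congr rfl fun i _ => by
      show c i / c j * _ = _
      rw [div_mul_eq_mul_div]
  -- an element vanishing at the other points with unit reduction
  have hu : ∀ l : T →+* ℂ, l ∉ S →
      ∃ u : A ⊗[ℤ] T, evalAt A.subtype l u = 0 ∧ IsUnit (Θ u) := by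
    intro l hl
    simp only [S, Finset.mem_filter, Finset.mem_univ, true_and, not_forall] at hl
    obtain ⟨t, n, htn, hln⟩ := hl
    refine ⟨(1 : A) ⊗ₜ t - (⟨l t, map_mem A l t⟩ : A) ⊗ₜ 1, ?_, ?_⟩
    · rw [map_sub, evalAt_tmul, evalAt_tmul, map_one, map_one, one_mul, mul_one]
      exact sub_self _
    have e : Θ ((1 : A) ⊗ₜ t - (⟨l t, map_mem A l t⟩ : A) ⊗ₜ 1) =
        Algebra.TensorProduct.includeRight (θ t - (n : B)) +
          Algebra.TensorProduct.includeLeft (S := ℤ)
            (res (n - ⟨l t, map_mem A l t⟩ : A)) := by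
      simp only [Θ, map_sub, map_intCast, Algebra.TensorProduct.map_tmul, map_one]
      rw [sub_add_sub_cancel]
      rfl
    rw [e]
    have hnil : IsNilpotent (θ t - (n : B)) := by
      obtain ⟨m, hm⟩ := IsArtinianRing.isNilpotent_jacobson_bot (R := B)
      refine ⟨m, ?_⟩
      have := Ideal.pow_mem_pow htn m
      rwa [← IsLocalRing.jacobson_eq_maximalIdeal (⊥ : Ideal B) bot_ne_top, hm,
        Ideal.zero_eq_bot, Ideal.mem_bot] at this
    refine (hnil.map _).isUnit_add_right_of_commute (IsUnit.map _ ?_) (Commute.all _ _)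
    refine isUnit_iff_ne_zero.mpr fun h => hln ?_
    rw [hres] at h
    have h' := neg_mem h
    simpa using h'
  choose u hu0 hu1 using hu
  let U : A ⊗[ℤ] T := ∏ l : {l // l ∉ S}, u l.1 l.2
  have hzero : y * U = 0 := by
    refine Module.Flat.rTensor_preserves_injective_linearMap
      (A.subtype.toAddMonoidHom.toIntLinearMap) Subtype.coe_injective ?_
    rw [map_zero]
    refine eq_zero_of_evalAt fun l => ?_
    have e : ∀ z, evalAt (RingHom.id ℂ) l
        (LinearMap.rTensor T A.subtype.toAddMonoidHom.toIntLinearMap z) = evalAt A.subtype l z := by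
      intro z
      induction z using TensorProduct.induction_on with
      | zero => simp
      | tmul r t => rw [LinearMap.rTensor_tmul, evalAt_tmul, evalAt_tmul]; rfl
      | add p q hp hq => rw [map_add, map_add, map_add, hp, hq]
    rw [e, map_mul]
    by_cases hl : l ∈ S
    · rw [hy l hl, zero_mul]
    · rw [map_prod, Finset.prod_eq_zero (Finset.mem_univ (⟨l, hl⟩ : {l // l ∉ S})) (hu0 l hl),
        mul_zero]
  have hΘ : Θ y = 0 := by
    have h := congrArg Θ hzero
    rw [map_mul, map_zero] at h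
    have hU : IsUnit (Θ U) := by
      rw [map_prod]
      exact IsUnit.prod_iff.mpr fun l _ => hu1 l.1 l.2
    exact hU.mul_left_eq_zero.mp h
  -- the coordinate of the index of the largest coefficient
  let φ : B →+ k := (ZMod.castHom dvd_rfl k).toAddMonoidHom.comp
    (bB.coord (Fin.castLE hr j)).toAddMonoidHom
  let Ψ : k ⊗[ℤ] B →ₗ[ℤ] k :=
    TensorProduct.lift (LinearMap.mk₂ ℤ (fun (r : k) (z : B) => r * φ z)
      (fun r r' z => add_mul r r' _) (fun n r z => by simp [mul_assoc])
      (fun r z z' => by rw [map_add, mul_add]) fun n r z => by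
        rw [map_zsmul, mul_smul_comm])
  have hval : Ψ (Θ y) = 1 := by
    have e : ∀ i, φ (θ (x i)) = if i = j then 1 else 0 := fun i => by
      rw [hx]
      show ZMod.castHom dvd_rfl k (bB.coord _ (bB _)) = _
      rw [Module.Basis.coord_apply, Module.Basis.repr_self, Finsupp.single_apply]
      by_cases hij : i = j
      · subst hij; simp
      · rw [if_neg (fun h => hij (Fin.castLE_injective hr h)), if_neg hij, map_zero]
    have e2 : ∀ i, Ψ (Θ (a i ⊗ₜ x i)) = res (a i) * φ (θ (x i)) := fun i => by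
      simp only [Θ, Algebra.TensorProduct.map_tmul]
      rfl
    simp only [y, map_sum, e2, e, mul_ite, mul_one, mul_zero, Finset.sum_ite_eq', Finset.mem_univ,
      if_true]
    rw [show a j = 1 from Subtype.ext (div_self hcj), map_one]
  rw [hΘ, map_zero] at hval
  exact zero_ne_one hval

/-- **The count.** A surjection onto a local ring with at least `2 ^ d` elements gives `d`
congruent complex points. -/
theorem exists_points (θ : T →+* B) (hθ : Function.Surjective θ) (d : ℕ)
    (hd : 2 ^ d ≤ Nat.card B) :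
    ∃ A : ValuationSubring ℂ, (2 : ℂ) ∈ A.nonunits ∧ ∃ lam : Fin d → (T →+* ℂ),
      Function.Injective lam ∧ ∀ (i : Fin d) (t : T) (a : ℤ),
        θ t - (a : B) ∈ maximalIdeal B → lam i t - (a : ℂ) ∈ A.nonunits := by
  classical
  obtain ⟨A, hA⟩ := exists_valuationSubring_two
  refine ⟨A, hA, ?_⟩
  have := finite_points (T := T)
  let _ : Fintype (T →+* ℂ) := Fintype.ofFinite _
  have hres : ∀ x : A, residue A x = 0 ↔ (x : ℂ) ∈ A.nonunits := fun x => by
    rw [residue_eq_zero_iff, ← ValuationSubring.coe_mem_nonunits_iff]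
  have : CharP (ResidueField A) 2 := by
    refine (CharP.charP_iff_prime_eq_zero Nat.prime_two).mpr ?_
    rw [← map_natCast (residue A), hres]
    exact_mod_cast hA
  have hS := le_card_points A (residue A) hres θ hθ d hd
  let S : Finset (T →+* ℂ) := Finset.univ.filter fun l => ∀ (t : T) (a : ℤ),
    θ t - (a : B) ∈ maximalIdeal B → l t - (a : ℂ) ∈ A.nonunits
  let e : Fin d ↪ S := (Fin.castLEEmb hS).trans S.equivFin.symm.toEmbedding
  exact ⟨fun i => (e i).1, fun i j h => e.injective (Subtype.ext h),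
    fun i => (Finset.mem_filter.mp (e i).2).2⟩

end Fermat.Agent.Two.Eigen

end
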