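import Mathlib.LinearAlgebra.Matrix.Charpoly.Basic
import Mathlib.LinearAlgebra.Matrix.NonsingularInverse
import Mathlib.LinearAlgebra.Matrix.ToLin
import Mathlib.LinearAlgebra.FreeModule.Finite.Matrix
import Mathlib.RingTheory.Artinian.Module
import Mathlib.RingTheory.Ideal.AssociatedPrime.Localization
import Mathlib.Analysis.Complex.Basic
import Mathlib.RingTheory.PrincipalIdealDomain
import Mathlib.RingTheory.HopkinsLevitzki
import Mathlib.Algebra.CharP.Algebra
import Mathlib.Algebra.Polynomial.Roots

/-!
# Eigenvectors for the points of a commutative algebra of integral matrices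

Every ring homomorphism to `ℂ` of a commutative ring of integral endomorphisms of `ℤ ^ X` is the
system of eigenvalues of a common complex eigenvector.
-/

set_option autoImplicit false

noncomputable section

namespace Fermat.Agent.Two.Eigen

open Matrix Polynomial

variable {X : Type*} [Fintype X] [DecidableEq X]

/-- The complex matrix of an integral endomorphism. -/
def cxMatrix : Module.End ℤ (X → ℤ) →+* Matrix X X ℂ :=
  (Int.castRingHom ℂ).mapMatrix.comp (LinearMap.toMatrixAlgEquiv').toRingEquiv.toRingHom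

theorem cxMatrix_apply (t : Module.End ℤ (X → ℤ)) (x y : X) :
    cxMatrix t x y = ((t (Pi.single y 1) x : ℤ) : ℂ) := by
  simp [cxMatrix, LinearMap.toMatrixAlgEquiv'_apply]

/-- **Every point of a commutative algebra of integral endomorphisms has an eigenvector.** -/
theorem exists_eigenvector {T : Subalgebra ℤ (Module.End ℤ (X → ℤ))}
    (hT : ∀ a ∈ T, ∀ b ∈ T, Commute a b) (lam : T →+* ℂ) :
    ∃ f : X → ℂ, f ≠ 0 ∧ ∀ t : T, cxMatrix (t : Module.End ℤ (X → ℤ)) *ᵥ f = lam t • f := by
  classical
  let : CommRing T := { (inferInstance : Ring T) with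
    mul_comm := fun a b => Subtype.ext (hT a a.2 b b.2) }
  have : Module.Finite ℤ T := Module.Finite.of_fg (IsNoetherian.noetherian T.toSubmodule)
  obtain ⟨r, b, hb⟩ := Module.Finite.exists_fin (R := ℤ) (M := T)
  let Φ : T →+* Matrix X X ℂ := cxMatrix.comp T.val.toRingHom
  have hcomm : ∀ x ∈ Set.range Φ, ∀ y ∈ Set.range Φ, x * y = y * x := by
    rintro _ ⟨a, rfl⟩ _ ⟨a', rfl⟩
    rw [← map_mul, ← map_mul, mul_comm]
  let S := Algebra.adjoin ℂ (Set.range Φ)
  have := Algebra.isMulCommutative_adjoin ℂ hcomm
  let : CommRing S := open scoped IsMulCommutative in inferInstance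
  have : FiniteDimensional ℂ S := FiniteDimensional.finiteDimensional_submodule S.toSubmodule
  have : IsArtinianRing S := isArtinian_of_tower ℂ inferInstance
  let φ : T →+* S := RingHom.codRestrict Φ S fun a => Algebra.subset_adjoin ⟨a, rfl⟩
  let e : Fin r → S := fun k => φ (b k) - algebraMap ℂ S (lam (b k))
  -- the ideal of the point is proper
  have hI : Ideal.span (Set.range e) ≠ ⊤ := by
    intro htop
    have hk : ∀ μ : MaximalSpectrum S, ∃ k, e k ∉ μ.asIdeal := fun μ => by
      by_contra h
      push Not at h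
      exact μ.isMaximal.ne_top (top_le_iff.mp (htop ▸ Ideal.span_le.mpr
        (Set.range_subset_iff.mpr h)))
    let q : ∀ μ : MaximalSpectrum S, (S ⧸ μ.asIdeal)[X] := fun μ =>
      ∑ k : Fin r, C (Ideal.Quotient.mk μ.asIdeal (e k)) * Polynomial.X ^ (k : ℕ)
    have hq : ∀ μ, q μ ≠ 0 := fun μ h => by
      obtain ⟨k, hk'⟩ := hk μ
      have := congrArg (fun p => Polynomial.coeff p (k : ℕ)) h
      simp only [q, finsetSum_coeff, coeff_C_mul, coeff_X_pow, coeff_zero] at this
      rw [Finset.sum_eq_single k (fun i _ hi => by simp [Fin.val_ne_iff.mpr hi.symm])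
        (by simp), if_pos rfl, mul_one] at this
      exact hk' (Ideal.Quotient.eq_zero_iff_mem.mp this)
    obtain ⟨N, hN⟩ : ∃ N : ℕ, ∀ μ, (q μ).eval (N : S ⧸ μ.asIdeal) ≠ 0 := by
      have hfin : (⋃ μ : MaximalSpectrum S,
          {N : ℕ | (q μ).eval (N : S ⧸ μ.asIdeal) = 0}).Finite := Set.finite_iUnion fun μ => by
        let := Ideal.Quotient.field μ.asIdeal
        have : CharZero (S ⧸ μ.asIdeal) :=
          charZero_of_injective_algebraMap (algebraMap ℂ (S ⧸ μ.asIdeal)).injective
        exact (Polynomial.finite_setOfPred_isRoot (hq μ)).preimage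
          (Nat.cast_injective.injOn)
      obtain ⟨N, hN⟩ := hfin.infinite_compl.nonempty
      simp only [Set.mem_compl_iff, Set.mem_iUnion, not_exists] at hN
      exact ⟨N, hN⟩
    let t : T := ∑ k : Fin r, ((N : T) ^ (k : ℕ)) * b k
    have hunit : IsUnit (φ t - algebraMap ℂ S (lam t)) := by
      by_contra h
      obtain ⟨m, hm, hmem⟩ := exists_max_ideal_of_mem_nonunits (mem_nonunits_iff.mpr h)
      refine hN ⟨m, hm⟩ ?_
      show (q ⟨m, hm⟩).eval _ = 0
      have : φ t - algebraMap ℂ S (lam t) = ∑ k, e k * (N : S) ^ (k : ℕ) := by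
        simp only [t, e, map_sum, map_mul, map_pow, map_natCast]
        rw [← Finset.sum_sub_distrib]
        exact Finset.sum_congr rfl fun k _ => by ring
      rw [this] at hmem
      simpa [q, eval_finsetSum] using Ideal.Quotient.eq_zero_iff_mem.mpr hmem
    have hdet : (cxMatrix (t : Module.End ℤ (X → ℤ)) - scalar X (lam t)).det = 0 := by
      set A := LinearMap.toMatrixAlgEquiv' (t : Module.End ℤ (X → ℤ)) with hA
      have hT0 : aeval t A.charpoly = 0 := by
        refine Subtype.ext (LinearMap.toMatrixAlgEquiv'.injective ?_)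
        rw [show ((aeval t A.charpoly : T) : Module.End ℤ (X → ℤ)) =
          aeval (t : Module.End ℤ (X → ℤ)) A.charpoly from
            (aeval_algHom_apply T.val t A.charpoly).symm,
          ← aeval_algHom_apply, ← hA, Matrix.aeval_self_charpoly, ZeroMemClass.coe_zero, map_zero]
      have h0 := congrArg lam hT0
      rw [map_zero, aeval_def, hom_eval₂] at h0
      have h1 : (cxMatrix (t : Module.End ℤ (X → ℤ))).charpoly.eval (lam t) = 0 := by
        rw [show cxMatrix (t : Module.End ℤ (X → ℤ)) = A.map (Int.castRingHom ℂ) from rfl,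
          Matrix.charpoly_map, eval_map]
        exact (RingHom.ext_int (Int.castRingHom ℂ) (lam.comp (algebraMap ℤ T))) ▸ h0
      rw [Matrix.eval_charpoly] at h1
      rw [← neg_sub, det_neg, h1, mul_zero]
    have := (hunit.map S.val)
    rw [Matrix.isUnit_iff_isUnit_det] at this
    refine this.ne_zero ?_
    rw [map_sub, AlgHom.commutes]
    exact hdet
  obtain ⟨m, hm, hle⟩ := Ideal.exists_le_maximal _ hI
  -- a vector killed by it
  let : Module S (X → ℂ) :=
    Module.compHom _ ((Matrix.toLinAlgEquiv' (R := ℂ) (n := X)).toRingEquiv.toRingHom.comp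
      S.val.toRingHom)
  have hsmul : ∀ (s : S) (v : X → ℂ), s • v = (s : Matrix X X ℂ) *ᵥ v := fun _ _ => rfl
  have : IsScalarTower ℂ S (X → ℂ) := ⟨fun c s v => by
    rw [hsmul, hsmul, Subalgebra.coe_smul, smul_mulVec]⟩
  have : Module.Finite S (X → ℂ) := Module.Finite.of_restrictScalars_finite ℂ S (X → ℂ)
  have hann : Module.annihilator S (X → ℂ) = ⊥ := by
    refine eq_bot_iff.mpr fun s hs => Subtype.ext (Matrix.ext fun i j => ?_)
    have h := congrFun (Module.mem_annihilator.mp hs (Pi.single j 1)) i
    rw [hsmul, mulVec_single_one] at h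
    exact h
  have hass : m ∈ associatedPrimes S (X → ℂ) :=
    Module.associatedPrimes.minimalPrimes_annihilator_subset_associatedPrimes (R := S) (M := X → ℂ)
      (IsArtinianRing.mem_minimalPrimes (hp := hm.isPrime) (by rw [hann]; exact bot_le))
  obtain ⟨-, f, hf⟩ := isAssociatedPrime_iff.mp hass
  have hmem : ∀ s ∈ m, s • f = 0 := fun s hs => by
    rw [hf, Submodule.mem_colon_singleton, Submodule.mem_bot] at hs
    exact hs
  refine ⟨f, fun h0 => hm.ne_top ?_, fun t => ?_⟩
  · rw [Ideal.eq_top_iff_one, hf, Submodule.mem_colon_singleton, h0, smul_zero]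
    exact zero_mem _
  · have ht : t ∈ Submodule.span ℤ (Set.range b) := hb ▸ Submodule.mem_top
    induction ht using Submodule.span_induction with
    | mem a ha =>
      obtain ⟨k, rfl⟩ := ha
      have h := hmem (e k) (hle (Ideal.subset_span ⟨k, rfl⟩))
      rw [hsmul] at h
      simp only [e, AddSubgroupClass.coe_sub, sub_mulVec, sub_eq_zero] at h
      refine h.trans ?_
      show (algebraMap ℂ (Matrix X X ℂ) (lam (b k))) *ᵥ f = _
      rw [Algebra.algebraMap_eq_smul_one, smul_mulVec, one_mulVec]
    | zero => simp [map_zero]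
    | add a a' _ _ h h' =>
      rw [Subalgebra.coe_add, map_add, add_mulVec, h, h', map_add, add_smul]
    | smul c a _ h =>
      rw [map_zsmul, Subalgebra.coe_smul, map_zsmul, smul_mulVec, h, smul_assoc]

end Fermat.Agent.Two.Eigen

end
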