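import Fermat.Agent.Two.Brandt.Forms
import Fermat.Agent.Two.Brandt.Reduced
import Fermat.Agent.Two.Eigen.Vector

/-!
# The theta series of a point of the Hecke algebra

A ring map from the Hecke algebra of a neat level to `ℂ` has an eigenfunction, and the theta series
of an eigenfunction has coefficients obeying the recursions of its eigenvalues.
-/

set_option autoImplicit false

noncomputable section

open CongruenceSubgroup ModularFormClass
open scoped MatrixGroups

namespace Fermat.Agent.Two.Eigen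

open Brandt Brandt.Param Brandt.Param.Sub

/-- A generator as an element of the algebra it generates. -/
def adjGen {R A κ : Type*} [CommSemiring R] [Semiring A] [Algebra R A] (g : κ → A) (i : κ) :
    Algebra.adjoin R (Set.range g) :=
  ⟨g i, Algebra.subset_adjoin ⟨i, rfl⟩⟩

/-- A point of a generated ring is determined by the values at the generators. -/
theorem adjGen_ringHom_ext {A B κ : Type*} [Ring A] [Ring B] {g : κ → A}
    {φ ψ : Algebra.adjoin ℤ (Set.range g) →+* B} (h : ∀ i, φ (adjGen g i) = ψ (adjGen g i)) :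
    φ = ψ := by
  have e : φ.toIntAlgHom = ψ.toIntAlgHom := by
    refine AlgHom.adjoin_ext fun x hx => ?_
    obtain ⟨i, rfl⟩ := hx
    exact h i
  exact RingHom.ext fun x => AlgHom.congr_fun e x

/-- The complex matrix of an integral Hecke operator acts as the complex operator. -/
theorem cxMatrix_op {G ι : Type*} [Group G] {Λ : Level G ι} [Fintype (Cls Λ)]
    [DecidableEq (Cls Λ)] (K : Corr Λ) (f : Cls Λ → ℂ) :
    Matrix.mulVec (cxMatrix (Corr.op ℤ K)) f = Corr.op ℂ K f := by
  funext c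
  conv_rhs => rw [pi_eq_sum_univ' f, map_sum, Finset.sum_apply]
  refine Finset.sum_congr rfl fun d _ => ?_
  show cxMatrix (Corr.op ℤ K) c d * f d = _
  rw [map_smul, Pi.smul_apply, smul_eq_mul, op_single_clsEntry, cxMatrix_apply,
    op_single_clsEntry, Int.cast_natCast, mul_comm]

variable {P : Param} {Λ : P.Sub} {l : Nat.Primes}

/-- The operator at a nice prime commutes with all Hecke operators. -/
theorem commute_op_cellOp_one_heckeT (R : Type*) [CommRing R] {p : Nat.Primes} (h : Λ.IsNice p)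
    (n : ℕ) : Commute (Corr.op R (Λ.cellOp p 1).corr) (Corr.op R (Λ.heckeT n)) := by
  refine (Submonoid.mem_centralizer_iff.mp (op_heckeT_mem R (Submonoid.centralizer
    {Corr.op R (Λ.cellOp p 1).corr}) fun r _ => Submonoid.mem_centralizer_iff.mpr ?_) _ rfl :)
  rintro _ rfl
  rcases eq_or_ne p r with rfl | hne
  · rw [← heckeT_prime_pow' h.W_eq, ← heckeT_prime_pow' h.W_eq]
    exact (commute_op_heckeT_pow_prime R h h 1 _).eq
  · exact (Commute.map (LocOp.corr_comm _ _ hne) _).eq

variable (hram : IsRamified P l) (hl : (l : ℕ) % 12 = 1) (hbad : Λ.bad = ∅) (x : Pt Λ.level)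
  {f : Cls Λ.level → ℂ}

include hram hl hbad

/-- **The recursion at a special prime.** -/
theorem qCoeff_classTheta_special_mul {v : Nat.Primes} (hv : P.IsSpecial v) {u : ℂ}
    (hu : Corr.op ℂ (Λ.cellOp v 1).corr f = u • f) {n : ℕ} (hn : n ≠ 0) :
    qCoeff (classTheta x f) ((v : ℕ) * n) = u * qCoeff (classTheta x f) n := by
  have hnice : Λ.IsNice v := isNice_of_bad_eq_empty hbad (Or.inr hv)
  rw [qCoeff_classTheta_eq hram hl hbad x f hn,
    qCoeff_classTheta_eq hram hl hbad x f (mul_ne_zero v.2.ne_zero hn),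
    heckeT_special_mul hv hnice.W_eq hn, map_mul,
    (commute_op_cellOp_one_heckeT ℂ hnice n).eq, Module.End.mul_apply, hu, map_smul,
    Pi.smul_apply, smul_eq_mul]
  ring

omit hram hl x in
/-- The eigenvalue at a special prime is a sign. -/
theorem eigenvalue_special_sq {v : Nat.Primes} (hv : P.IsSpecial v) {u : ℂ}
    (hu : Corr.op ℂ (Λ.cellOp v 1).corr f = u • f) (hf : f ≠ 0) : u ^ 2 = 1 := by
  obtain ⟨c, hc⟩ := Function.ne_iff.mp hf
  have hnice : Λ.IsNice v := isNice_of_bad_eq_empty hbad (Or.inr hv)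
  have h := congrFun (LinearMap.congr_fun
    (op_cellOp_one_sq ℂ hv hnice.W_eq (by simp [hbad])) f) c
  rw [pow_two, Module.End.mul_apply, hu, map_smul, hu, smul_smul, Pi.smul_apply, smul_eq_mul,
    Module.End.one_apply] at h
  rw [pow_two]
  exact mul_right_cancel₀ hc (by rw [one_mul]; exact h)

/-- **The recursion at a split prime.** -/
theorem qCoeff_classTheta_split_mul {p : Nat.Primes} (hp : P.IsSplitAt p) {a : ℂ}
    (ha : Corr.op ℂ (Λ.cellOp p 1).corr f = a • f) {n : ℕ} (hn : n ≠ 0) :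
    qCoeff (classTheta x f) ((p : ℕ) * n) +
        (if (p : ℕ) ∣ n then ((p : ℕ) : ℂ) * qCoeff (classTheta x f) (n / (p : ℕ)) else 0) =
      a * qCoeff (classTheta x f) n := by
  have hnice : Λ.IsNice p := isNice_of_bad_eq_empty hbad (Or.inl hp)
  have h := congrFun (LinearMap.congr_fun
    (op_heckeT_prime_mul' ℂ (Λ := Λ) (by simp [hbad]) hp (by simp [hbad]) hn) f) (cls x)
  rw [heckeT_prime' hnice.W_eq, (commute_op_cellOp_one_heckeT ℂ hnice n).eq,
    Module.End.mul_apply, ha, map_smul, Pi.smul_apply, smul_eq_mul, LinearMap.add_apply,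
    Pi.add_apply] at h
  rw [qCoeff_classTheta_eq hram hl hbad x f hn,
    qCoeff_classTheta_eq hram hl hbad x f (mul_ne_zero p.2.ne_zero hn), mul_left_comm, h]
  split_ifs with hd
  · rw [qCoeff_classTheta_eq hram hl hbad x f
      (Nat.div_pos (Nat.le_of_dvd (Nat.pos_of_ne_zero hn) hd) p.2.pos).ne',
      LinearMap.smul_apply, Pi.smul_apply, nsmul_eq_mul]
    ring
  · simp

omit x in
/-- **The form of a point of the Hecke algebra**: its coefficients obey the recursions of the
values of the point, and its first coefficient does not vanish. -/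
theorem exists_form {κ κ' : Type*} (p : κ → Nat.Primes) (q : κ' → Nat.Primes)
    (hp : ∀ i, P.IsSplitAt (p i)) (hq : ∀ j, P.IsSpecial (q j))
    (lam : Algebra.adjoin ℤ (Set.range (Sum.elim (fun i => Corr.op ℤ (Λ.cellOp (p i) 1).corr)
      fun j => Corr.op ℤ (Λ.cellOp (q j) 1).corr)) →+* ℂ) :
    ∃ F : ModularForm ((Gamma0 (latticeLevel P) : Subgroup SL(2, ℤ)) : Subgroup (GL (Fin 2) ℝ)) 2,
      qCoeff F 1 ≠ 0 ∧
      (∀ j, lam (adjGen _ (Sum.inr j)) ^ 2 = 1 ∧ ∀ n : ℕ, 0 < n →
        qCoeff F ((q j : ℕ) * n) = lam (adjGen _ (Sum.inr j)) * qCoeff F n) ∧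
      ∀ i, ∀ n : ℕ, 0 < n →
        qCoeff F ((p i : ℕ) * n) +
            (if (p i : ℕ) ∣ n then ((p i : ℕ) : ℂ) * qCoeff F (n / (p i : ℕ)) else 0) =
          lam (adjGen _ (Sum.inl i)) * qCoeff F n := by
  classical
  let := Fintype.ofFinite (Cls Λ.level)
  have hpq : ∀ a, P.IsSplitAt (Sum.elim p q a) ∨ P.IsSpecial (Sum.elim p q a) :=
    Sum.rec (fun i => Or.inl (hp i)) fun j => Or.inr (hq j)
  have hgen : ∀ a, Sum.elim (fun i => Corr.op ℤ (Λ.cellOp (p i) 1).corr)
      (fun j => Corr.op ℤ (Λ.cellOp (q j) 1).corr) a =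
        Corr.op ℤ (Λ.cellOp (Sum.elim p q a) 1).corr := fun a => by
    cases a <;> rfl
  obtain ⟨f, hf, heig⟩ := exists_eigenvector (fun a ha b hb => mul_comm_of_mem_adjoin (by
    rintro _ ⟨a, rfl⟩ _ ⟨b, rfl⟩
    rw [hgen, hgen]
    exact (commute_op_cellOp_one hbad (hpq a) (hpq b)).eq) ha hb) lam
  have hop : ∀ a, Corr.op ℂ (Λ.cellOp (Sum.elim p q a) 1).corr f = lam (adjGen _ a) • f :=
    fun a => by
      rw [← cxMatrix_op, ← hgen]
      exact heig (adjGen _ a)
  obtain ⟨c, hc⟩ := Function.ne_iff.mp hf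
  refine ⟨classTheta (classRep Λ c) f, ?_, fun j => ⟨?_, fun n hn => ?_⟩, fun i n hn => ?_⟩
  · rw [qCoeff_classTheta_one hram hl hbad, cls_classRep]
    exact mul_ne_zero two_ne_zero hc
  · exact eigenvalue_special_sq hbad (hq j) (hop (Sum.inr j)) hf
  · exact qCoeff_classTheta_special_mul hram hl hbad _ (hq j) (hop (Sum.inr j)) hn.ne'
  · exact qCoeff_classTheta_split_mul hram hl hbad _ (hp i) (hop (Sum.inl i)) hn.ne'

end Fermat.Agent.Two.Eigen

end
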