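import Fermat.Agent.Two.Eigen.PointCount
import Fermat.Agent.Two.Brandt.SetupFacts

/-!
# The quaternionic input from the seeds
-/

set_option autoImplicit false

noncomputable section

namespace Fermat.Agent.Two.Eigen

open Brandt

/-- **The quaternionic input from the seeds.** -/
theorem eigenInput_of
    (hseed : ∀ (W : WeierstrassCurve ℤ) (hW : TwoCurve W) (V : Finset ℕ),
      (∀ v ∈ V, AuxPrime W hW.Δ_ne_zero v 1 ∧ v % 12 = 1) →
        ∀ S : Setup W V, HasSeed S (classTwo W * 2 ^ V.card)) :
    EigenInput := fun W hW V hV => by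
  obtain ⟨S⟩ := exists_setup hW hV
  exact eigenSystems_of pointCount ⟨hW.Δ_ne_zero, fun v hv => (hV v hv).1.prime⟩ S
    (hseed W hW V hV S)

end Fermat.Agent.Two.Eigen

end
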