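import Fermat.Agent.Two.Eigen.HasSeed
import Fermat.Agent.Two.Seed.Global

/-!
# The seed of an auxiliary curve from its values
-/

set_option autoImplicit false

noncomputable section

namespace Fermat.Agent.Two.Eigen

open Brandt Brandt.Param MonoidAlgebra

variable {W : WeierstrassCurve ℤ} {V : Finset ℕ}

theorem eq_one_or_ofAdd : ∀ y : Multiplicative (ZMod 2), y = 1 ∨ y = Multiplicative.ofAdd 1 := by
  decide

/-- **The seed from its values.** -/
theorem hasSeed_of_hasTheta (hW : TwoCurve W) (hV : ∀ v ∈ V, v.Prime) (S : Setup W V)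
    (h : Seed.HasTheta S) : HasSeed S (classTwo W * 2 ^ V.card) := by
  classical
  have : Fact (Nat.Prime 2) := ⟨Nat.prime_two⟩
  have : Fintype (AuxIdx V) := Fintype.ofFinite _
  obtain ⟨θ, hv, hl⟩ := h
  have haug : ∀ x, Seed.augment (Seed.classElt W V x) = 1 := fun x => Seed.augment_of _
  refine hasSeed_of_theta hW S (Seed.isPGroup_seedGroup W V)
    ((MonoidHom.inl _ _).comp (Seed.clProj W))
    (fun v => (1, Pi.mulSingle v (Multiplicative.ofAdd 1))) ?_ ?_ θ
    (fun v => (hv v).trans rfl) (fun l h2 hu => ?_) fun l hsq h2 I hI hmem => ?_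
  · refine eq_top_iff.mpr fun x _ => ?_
    rw [show x = (x.1, 1) * (1, x.2) by simp]
    refine mul_mem (Subgroup.subset_closure (Or.inl ?_)) ?_
    · obtain ⟨c, hc⟩ := Seed.clProj_surjective W x.1
      exact ⟨c, by simp [hc]⟩
    · rw [← Finset.univ_prod_mulSingle x.2,
        show ((1 : Seed.clTwoGroup W), ∏ v, Pi.mulSingle v (x.2 v)) =
          MonoidHom.inr (Seed.clTwoGroup W) (AuxIdx V → Multiplicative (ZMod 2))
            (∏ v, Pi.mulSingle v (x.2 v)) from rfl, map_prod]
      refine Subgroup.prod_mem _ fun v _ => ?_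
      rcases eq_one_or_ofAdd (x.2 v) with e | e
      · rw [e, Pi.mulSingle_one, MonoidHom.map_one]; exact one_mem _
      · rw [e]; exact Subgroup.subset_closure (Or.inr (Set.mem_range_self v))
  · refine le_of_eq ?_
    rw [Nat.card_prod, Nat.card_pi, Finset.prod_const, Finset.card_univ,
      ← Nat.card_eq_fintype_card, card_auxIdx hV,
      Nat.card_congr Multiplicative.toAdd, Nat.card_zmod, card_range_classPow]
  · have haug2 : Seed.augment (θ (gen S (Sum.inl l))) = 0 := by
      rcases (hl l).2.1 h2 with e | ⟨x, e⟩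
      · rw [e, map_zero]
      · rw [e, map_add, haug, haug, CharTwo.add_self_eq_zero]
    exact not_isUnit_zero (haug2 ▸ hu.map Seed.augment)
  · obtain ⟨c, hc, e⟩ := (hl l).2.2 hsq h2 I hI hmem
    refine ⟨c, hc, e.trans ?_⟩
    simp [Seed.classElt, map_inv]

/-- The seed of an auxiliary curve from the cubic character. -/
theorem hasSeed_of_psi (hW : TwoCurve W) (hV : ∀ v ∈ V, v.Prime) (S : Setup W V)
    {ψ : Nat.Primes → S.P.fieldUnits →* Multiplicative (ZMod 3)} (hψ : Seed.IsPsi S ψ) :
    HasSeed S (classTwo W * 2 ^ V.card) :=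
  hasSeed_of_hasTheta hW hV S (Seed.hasTheta_of_psi hW hV S hψ)

end Fermat.Agent.Two.Eigen

end
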