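import Fermat.Agent.Two.Eigen.Algebra
import Fermat.Agent.Two.Class.Density
import Fermat.Agent.Two.Class.Quad
import Fermat.Agent.Two.Class.Map
import Fermat.Agent.Two.Seed.GroupAlgebra

/-!
# The seed from a character with values in a group algebra

A ring map on the Hecke algebra to the group algebra of a `2`-group over a field of characteristic
two, sending the operators at the primes with odd trace to `c [x] + (c [x])⁻¹` for `[x]` the image
of a prime above, has an image which is local and spans the group algebra: its derivative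
`c - c⁻¹ = 1` recovers `[x] - 1` modulo the square of the augmentation ideal, and these classes
generate the `2`-part of the class group.
-/

set_option autoImplicit false
set_option linter.style.haveILetI false

noncomputable section

namespace Fermat.Agent.Two.Eigen

open Brandt Brandt.Param IsLocalRing MonoidAlgebra
open scoped nonZeroDivisors

variable {W : WeierstrassCurve ℤ} {V : Finset ℕ}

local notation "Cl" W => ClassGroup (NumberField.RingOfIntegers (quadField W))

/-- A prime with odd trace is split. -/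
theorem isSquare_of_odd_apOfModel (hW : TwoCurve W) {ℓ : ℕ} (hℓ : ℓ.Prime) (hℓ2 : ℓ ≠ 2)
    (hgood : W.IsGoodPrimeFor ℓ) (hodd : ¬ (2 : ℤ) ∣ W.apOfModel ℓ) :
    IsSquare (W.Δ : ZMod ℓ) := by
  haveI : Fact (Nat.Prime 2) := ⟨Nat.prime_two⟩
  have hΔ := hW.Δ_ne_zero
  have hP := (Arith.exists_liesOverPrime hℓ).choose_spec
  have hφ := Arith.Density.frobAt_spec hℓ
  have ht := (Lower.frobenius_tateMod (p := 2) hΔ 1 hℓ hgood hℓ2 hP hφ).1
  have hdet : (Lower.tateMod (p := 2) hΔ 1 (Arith.Density.frobAt ℓ)).det = 1 :=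
    Class.eq_one_of_isUnit_two _
      ((Matrix.isUnit_iff_isUnit_det _).mp ((Group.isUnit _).map _))
  have hne : ((W.apOfModel ℓ : ℤ) : ZMod (2 ^ 1)) ≠ 0 := fun h0 =>
    hodd (by simpa using (ZMod.intCast_zmod_eq_zero_iff_dvd _ _).mp h0)
  rw [show ((W.apOfModel ℓ : ℤ) : ZMod (2 ^ 1)) = 1 from
    by_contra fun h => hne (Class.eq_zero_of_ne_one_two _ h)] at ht
  obtain ⟨h3, -⟩ := Class.cube_of_trace _ hdet ht
  have h3' : Arith.Density.frobAt ℓ ^ 3 ∈ galK W :=
    Class.mem_galK_of_tateMod_eq_one hΔ (by rw [map_pow, h3])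
  rw [pow_succ' _ 2, (galK W).mul_mem_cancel_right (Class.sq_mem_galK _)] at h3'
  exact (Class.mem_galK_iff_isSquare hℓ hℓ2 hgood hP hφ).mp h3'

theorem odd_classOdd (W : WeierstrassCurve ℤ) : Odd (classOdd W) := by
  rw [Nat.odd_iff, ← Nat.two_dvd_ne_zero, classOdd, classTwo,
    ← Nat.factorization_def _ Nat.prime_two]
  exact Nat.not_dvd_ordCompl Nat.prime_two Nat.card_pos.ne'

theorem isPGroup_range_classPow (W : WeierstrassCurve ℤ) :
    IsPGroup 2 (powMonoidHom (α := Cl W) (classOdd W)).range := by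
  intro x
  obtain ⟨c, hc⟩ := x.2
  refine ⟨padicValNat 2 (Nat.card (Cl W)), Subtype.ext ?_⟩
  show (x : Cl W) ^ classTwo W = 1
  rw [← hc, powMonoidHom_apply, ← pow_mul, mul_comm, Class.classTwo_mul_classOdd,
    pow_card_eq_one']

theorem card_range_classPow (W : WeierstrassCurve ℤ) :
    Nat.card (powMonoidHom (α := Cl W) (classOdd W)).range = classTwo W := by
  haveI : Fact (Nat.Prime 2) := ⟨Nat.prime_two⟩
  set f := powMonoidHom (α := Cl W) (classOdd W) with hf
  obtain ⟨j, hj⟩ := IsPGroup.iff_card.mp (isPGroup_range_classPow W)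
  have hker : ¬ 2 ∣ Nat.card f.ker := fun h2 => by
    obtain ⟨x, hx⟩ := exists_prime_orderOf_dvd_card' 2 h2
    have h1 : (x : Cl W) ^ classOdd W = 1 := by
      have := x.2
      exact MonoidHom.mem_ker.mp this
    have : orderOf x ∣ classOdd W := orderOf_dvd_of_pow_eq_one (Subtype.ext h1)
    rw [hx] at this
    exact Nat.not_even_iff_odd.mpr (odd_classOdd W) (even_iff_two_dvd.mpr this)
  have hmul := Subgroup.card_eq_card_quotient_mul_card_subgroup f.ker
  rw [Nat.card_congr (QuotientGroup.quotientKerEquivRange f).toEquiv, hj,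
    ← Class.classTwo_mul_classOdd] at hmul
  have h1 : classTwo W ∣ 2 ^ j := by
    refine (Nat.Coprime.dvd_mul_right ?_).mp (Dvd.intro _ hmul)
    exact Nat.Coprime.pow_left _ ((Nat.prime_two.coprime_iff_not_dvd).mpr hker)
  have h2 : 2 ^ j ∣ classTwo W := by
    refine (Nat.Coprime.dvd_mul_right ?_).mp (Dvd.intro _ hmul.symm)
    exact Nat.Coprime.pow_left _ (Nat.coprime_two_left.mpr (odd_classOdd W))
  rw [hj]
  exact Nat.dvd_antisymm h2 h1

/-- The augmentation of a monomial. -/
theorem augment_single {k : Type*} [Field k] {G : Type*} [CommGroup G] (g : G) (c : k) :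
    Seed.augment (single g c) = c := by
  simp [Seed.augment]

/-- **The seed from a character with values in a group algebra.** -/
theorem hasSeed_of_theta (hW : TwoCurve W) (S : Setup W V) {k : Type} [Field k] [Finite k]
    [CharP k 2] {G : Type} [CommGroup G] [Finite G] (hG : IsPGroup 2 G) (κ : (Cl W) →* G)
    (σ : AuxIdx V → G) (hgen : Subgroup.closure (Set.range κ ∪ Set.range σ) = ⊤) {d : ℕ}
    (hd : d ≤ Nat.card G) (θ : hecke S →+* MonoidAlgebra k G)
    (hU : ∀ v, θ (gen S (Sum.inr v)) = of k G (σ v))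
    (heven : ∀ l : GoodIdx W V, (2 : ℤ) ∣ W.apOfModel (l.1 : ℕ) →
      ¬ IsUnit (θ (gen S (Sum.inl l))))
    (hodd : ∀ l : GoodIdx W V, IsSquare (W.Δ : ZMod (l.1 : ℕ)) →
      ¬ (2 : ℤ) ∣ W.apOfModel (l.1 : ℕ) →
      ∀ I : (Ideal (NumberField.RingOfIntegers (quadField W)))⁰,
        (I : Ideal (NumberField.RingOfIntegers (quadField W))).IsPrime →
        ((l.1 : ℕ) : NumberField.RingOfIntegers (quadField W)) ∈
          (I : Ideal (NumberField.RingOfIntegers (quadField W))) →
        ∃ c : k, c * c + c + 1 = 0 ∧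
          θ (gen S (Sum.inl l)) = single (κ (ClassGroup.mk0 I)) c +
            single (κ (ClassGroup.mk0 I))⁻¹ c⁻¹) :
    HasSeed S d := by
  classical
  haveI : CharP (MonoidAlgebra k G) 2 := charP_of_injective_algebraMap' k 2
  haveI : IsLocalHom (Seed.augment (k := k) (G := G)).toRingHom := Seed.isLocalHom_augment hG
  haveI : IsLocalRing (MonoidAlgebra k G) :=
    RingHom.domain_isLocalRing (Seed.augment (k := k) (G := G)).toRingHom
  haveI : Module.Finite k (MonoidAlgebra k G) := Module.Finite.of_basis (MonoidAlgebra.basis G k)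
  haveI : Finite (MonoidAlgebra k G) := Module.finite_of_finite k
  let B : Subring (MonoidAlgebra k G) := θ.range
  haveI : CharP B 2 := (RingHom.charP_iff B.subtype Subtype.val_injective 2).mpr inferInstance
  haveI : IsLocalHom B.subtype := ⟨fun b hb => by
    have hinj : Function.Injective fun x : B => b * x := fun x y hxy =>
      Subtype.ext (hb.mul_left_cancel (congrArg Subtype.val hxy))
    obtain ⟨x, hx⟩ := (Finite.injective_iff_surjective.mp hinj) 1
    exact IsUnit.of_mul_eq_one (a := b) x hx⟩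
  haveI : IsLocalRing B := RingHom.domain_isLocalRing B.subtype
  have hmax : ∀ b : B, Seed.augment (b : MonoidAlgebra k G) = 0 → b ∈ maximalIdeal B := by
    intro b hb
    rw [mem_maximalIdeal, mem_nonunits_iff]
    intro hu
    have h2 : IsUnit (Seed.augment (b : MonoidAlgebra k G)) := (hu.map B.subtype).map Seed.augment
    rw [hb] at h2
    exact not_isUnit_zero h2
  have hcast : ∀ (a : ℤ), ((a : B) : MonoidAlgebra k G) = (a : MonoidAlgebra k G) := fun a =>
    map_intCast B.subtype a
  have hc1 : ∀ c : k, c * c + c + 1 = 0 → c + c⁻¹ = 1 := fun c hc => by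
    have hc0 : c ≠ 0 := fun h0 => by simp [h0] at hc
    have h2 : (2 : k) = 0 := CharTwo.two_eq_zero
    field_simp
    linear_combination hc - c * h2
  refine ⟨B, inferInstance, inferInstance, inferInstance, inferInstance, θ.rangeRestrict,
    θ.rangeRestrict_surjective, ?_, fun l => hmax _ ?_, fun v => hmax _ ?_⟩
  · refine (Nat.pow_le_pow_right two_pos hd).trans (Seed.two_pow_card_le B ?_)
    set A := Algebra.adjoin k (B : Set (MonoidAlgebra k G))
    have hmem : ∀ t, θ t ∈ A := fun t => Algebra.subset_adjoin ⟨t, rfl⟩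
    let Γ₀ : Set G := Set.range σ ∪ {g | ∃ l : GoodIdx W V, IsSquare (W.Δ : ZMod (l.1 : ℕ)) ∧
      ¬ (2 : ℤ) ∣ W.apOfModel (l.1 : ℕ) ∧
        ∃ I : (Ideal (NumberField.RingOfIntegers (quadField W)))⁰,
          (I : Ideal (NumberField.RingOfIntegers (quadField W))).IsPrime ∧
          ((l.1 : ℕ) : NumberField.RingOfIntegers (quadField W)) ∈
            (I : Ideal (NumberField.RingOfIntegers (quadField W))) ∧
          g = κ (ClassGroup.mk0 I)}
    refine Seed.subalgebra_eq_top hG A Γ₀ ?_ ?_
    · rw [eq_top_iff, ← hgen, Subgroup.closure_le, Set.union_subset_iff]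
      refine ⟨?_, fun g hg => Subgroup.subset_closure (Or.inl hg)⟩
      rintro _ ⟨x, rfl⟩
      have h := Class.pow_mem_of_odd_trace hW V ((Subgroup.closure Γ₀).comap κ)
        (fun ℓ hℓ hℓ2 hgood hV hodd' I hI hmemI => Subgroup.subset_closure (Or.inr
          ⟨⟨⟨ℓ, hℓ⟩, hgood, hℓ2, hV⟩, isSquare_of_odd_apOfModel hW hℓ hℓ2 hgood hodd', hodd', I,
            hI, hmemI, rfl⟩)) x
      rw [Subgroup.mem_comap, map_pow] at h
      obtain ⟨j, hj⟩ := hG (κ x)
      have hcop : (classOdd W).gcd (orderOf (κ x)) = 1 :=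
        Nat.Coprime.coprime_dvd_right (orderOf_dvd_of_pow_eq_one hj)
          (Nat.Coprime.pow_right j (Nat.coprime_two_right.mpr (odd_classOdd W)))
      exact (Subgroup.zpowers_le.mpr h) (mem_zpowers_pow_iff.mpr hcop)
    · rintro g (⟨v, rfl⟩ | ⟨l, hsq, hodd', I, hI, hmemI, rfl⟩)
      · refine ⟨θ (gen S (Sum.inr v)) - 1, sub_mem (hmem _) (one_mem _), ?_⟩
        rw [hU, sub_self]
        exact zero_mem _
      · refine ⟨θ (gen S (Sum.inl l)) - 1, sub_mem (hmem _) (one_mem _), ?_⟩
        obtain ⟨c, hc, hval⟩ := hodd l hsq hodd' I hI hmemI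
        set g := κ (ClassGroup.mk0 I)
        have hs : ∀ (g : G) (r : k), single g r = algebraMap k (MonoidAlgebra k G) r * of k G g :=
          fun g r => by simp [MonoidAlgebra.single_mul_single]
        have hxy : of k G g * of k G g⁻¹ = 1 := by rw [← map_mul, mul_inv_cancel, map_one]
        have hab : 1 - algebraMap k (MonoidAlgebra k G) c +
            algebraMap k (MonoidAlgebra k G) c⁻¹ = 0 := by
          rw [← map_one (algebraMap k (MonoidAlgebra k G)), ← map_sub, ← map_add,
            show (1 : k) - c + c⁻¹ = 0 by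
              rw [CharTwo.sub_eq_add, add_assoc, hc1 c hc, CharTwo.add_self_eq_zero], map_zero]
        have h2 : (2 : MonoidAlgebra k G) = 0 := CharTwo.two_eq_zero
        have key : of k G g - 1 - (θ (gen S (Sum.inl l)) - 1) =
            algebraMap k (MonoidAlgebra k G) c⁻¹ * ((of k G g - 1) * (of k G g⁻¹ - 1)) := by
          rw [hval, hs, hs]
          linear_combination (of k G g) * hab -
            algebraMap k (MonoidAlgebra k G) c⁻¹ * hxy - algebraMap k (MonoidAlgebra k G) c⁻¹ * h2
        rw [key]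
        refine Ideal.mul_mem_left _ _ (pow_two (RingHom.ker (Seed.augment (k := k) (G := G)).toRingHom)
          ▸ Ideal.mul_mem_mul ?_ ?_) <;>
        · show Seed.augment (_ - 1) = 0
          rw [map_sub, Seed.augment_of, map_one, sub_self]
  · rw [show ((θ.rangeRestrict (gen S (Sum.inl l)) - (W.apOfModel (l.1 : ℕ) : B) : B) :
      MonoidAlgebra k G) = θ (gen S (Sum.inl l)) - ((W.apOfModel (l.1 : ℕ) : ℤ) :
        MonoidAlgebra k G) by rw [← hcast]; rfl, map_sub, map_intCast]
    by_cases h2 : (2 : ℤ) ∣ W.apOfModel (l.1 : ℕ)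
    · rw [(CharP.intCast_eq_zero_iff k 2 _).mpr (by exact_mod_cast h2), sub_zero]
      by_contra hne
      exact heven l h2 (isUnit_of_map_unit (Seed.augment (k := k) (G := G)).toRingHom _
        (isUnit_iff_ne_zero.mpr hne))
    · obtain ⟨I, hI, hmemI⟩ := Class.exists_prime_above W l.1.2
      obtain ⟨c, hc, hval⟩ :=
        hodd l (isSquare_of_odd_apOfModel hW l.1.2 l.2.2.1 l.2.1 h2) h2 I hI hmemI
      have h1 : ((W.apOfModel (l.1 : ℕ) : ℤ) : k) = 1 := by
        obtain ⟨m, hm⟩ := Int.odd_iff.mpr (Int.two_dvd_ne_zero.mp h2)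
        rw [hm]
        push_cast
        rw [CharTwo.two_eq_zero, zero_mul, zero_add]
      rw [hval, map_add, augment_single, augment_single, hc1 c hc, h1, sub_self]
  · show Seed.augment (θ (gen S (Sum.inr v)) - 1) = 0
    rw [hU, map_sub, Seed.augment_of, map_one, sub_self]

instance finite_auxIdx (V : Finset ℕ) : Finite (AuxIdx V) :=
  Finite.of_injective (β := {n // n ∈ V}) (fun v => ⟨(v.1 : ℕ), v.2⟩) fun _ _ h =>
    Subtype.ext (Subtype.ext (congrArg (fun x : {n // n ∈ V} => (x : ℕ)) h))

theorem card_auxIdx (hV : ∀ v ∈ V, v.Prime) : Nat.card (AuxIdx V) = V.card := by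
  let e : AuxIdx V ≃ {n // n ∈ V} :=
    { toFun := fun v => ⟨(v.1 : ℕ), v.2⟩
      invFun := fun n => ⟨⟨n.1, hV n.1 n.2⟩, n.2⟩
      left_inv := fun _ => rfl
      right_inv := fun _ => rfl }
  rw [Nat.card_congr e, Nat.card_eq_fintype_card, Fintype.card_coe]

end Fermat.Agent.Two.Eigen

end
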