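import Fermat.Agent.Two.Eigen.Algebra
import Fermat.Agent.Two.Eigen.Form
import Fermat.Agent.Two.Interface

/-!
# Eigen systems from the seed
-/

set_option autoImplicit false

noncomputable section

namespace Fermat.Agent.Two.Eigen

open Brandt Brandt.Param IsLocalRing ModularFormClass

variable {W : WeierstrassCurve ℤ} {V : Finset ℕ}

/-- Counting the points of a reduced finite free ring over a residual point. -/
def PointCount : Prop :=
  ∀ (T : Type) [CommRing T] [Module.Free ℤ T] [Module.Finite ℤ T] [IsReduced T]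
    (B : Type) [CommRing B] [IsLocalRing B] [Finite B] [CharP B 2] (θ : T →+* B) (d : ℕ),
    Function.Surjective θ → 2 ^ d ≤ Nat.card B →
    ∃ A : ValuationSubring ℂ, (2 : ℂ) ∈ A.nonunits ∧
      ∃ (ι : Type) (_ : Finite ι) (lam : ι → (T →+* ℂ)), d ≤ Nat.card ι ∧ Function.Injective lam ∧
        ∀ (i : ι) (t : T) (a : ℤ), θ t - a ∈ maximalIdeal B → lam i t - a ∈ A.nonunits

theorem eigenSystems_of (hcount : PointCount) (h : Hyp W V) (S : Setup W V) {d : ℕ}
    (hseed : HasSeed S d) : EigenSystems W V d := by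
  classical
  let := Fintype.ofFinite (Cls (lvl S).level)
  obtain ⟨B, _, _, _, _, θ, hθ, hcard, hθl, hθv⟩ := hseed
  let := commRingHecke S h
  have := finite_hecke S
  have := free_hecke S
  have := isReduced_hecke S h
  obtain ⟨A, hA, ι, hι, lam, hd, hinj, hcongr⟩ := hcount (hecke S) B θ d hθ hcard
  obtain ⟨l, hl, hl12⟩ := S.exists_ramified
  choose F hF1 hFv hFl using fun i => exists_form (Λ := lvl S) hl hl12 (lvl_bad S)
    (fun l : GoodIdx W V => l.1) (fun v : AuxIdx V => v.1)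
    (fun l => isSplitAt_good S h.ne_zero h.prime l) (fun v => S.special v.1 v.2) (lam i)
  let F' : ι → ModularForm (CongruenceSubgroup.Gamma0 (badLevel W * ∏ v ∈ V, v)) 2 :=
    fun i => S.level ▸ F i
  have hq : ∀ i n, qCoeff (F' i) n = qCoeff (F i) n := fun i n => by
    have key : ∀ (N M : ℕ) (e : N = M) (G : ModularForm (CongruenceSubgroup.Gamma0 N) 2),
        qCoeff (e ▸ G : ModularForm (CongruenceSubgroup.Gamma0 M) 2) n = qCoeff G n := by
      intro N M e G; subst e; rfl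
    exact key _ _ S.level (F i)
  refine ⟨ι, hι, A, F',
    fun i l => if hl : l.Prime ∧ W.IsGoodPrimeFor l ∧ l ≠ 2 ∧ l ∉ V then
      lam i (gen S (Sum.inl ⟨⟨l, hl.1⟩, hl.2⟩)) else 0,
    fun i v => if hv : v ∈ V then lam i (gen S (Sum.inr ⟨⟨v, h.prime v hv⟩, hv⟩)) else 0,
    hd, hA, fun i => by rw [hq]; exact hF1 i, fun i v hv => ?_, fun i p hp hgood hp2 hpV => ?_,
    fun i i' hl' hv' => hinj (adjGen_ringHom_ext ?_)⟩
  · simp only [dif_pos hv]
    refine ⟨(hFv i ⟨⟨v, h.prime v hv⟩, hv⟩).1, fun n hn => ?_⟩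
    rw [hq, hq]
    exact (hFv i ⟨⟨v, h.prime v hv⟩, hv⟩).2 n hn
  · simp only [dif_pos (show p.Prime ∧ W.IsGoodPrimeFor p ∧ p ≠ 2 ∧ p ∉ V from
      ⟨hp, hgood, hp2, hpV⟩)]
    refine ⟨hcongr i _ _ (hθl ⟨⟨p, hp⟩, hgood, hp2, hpV⟩), fun n hn => ?_⟩
    simp only [hq]
    exact hFl i ⟨⟨p, hp⟩, hgood, hp2, hpV⟩ n hn
  · rintro (p | v)
    · have := hl' p.1 p.1.2 p.2.1 p.2.2.1 p.2.2.2
      simp only [dif_pos (show (p.1 : ℕ).Prime ∧ W.IsGoodPrimeFor p.1 ∧ (p.1 : ℕ) ≠ 2 ∧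
        (p.1 : ℕ) ∉ V from ⟨p.1.2, p.2⟩)] at this
      exact this
    · have := hv' v.1 v.2
      simp only [dif_pos v.2] at this
      exact this

end Fermat.Agent.Two.Eigen

end
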