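import Fermat.Agent.Two.Eigen.Count
import Fermat.Agent.Two.Eigen.Main

/-!
# The counting input of the eigen systems
-/

set_option autoImplicit false

namespace Fermat.Agent.Two.Eigen

/-- Congruent complex points are at least as many as the length of the residual ring. -/
theorem pointCount : PointCount := by
  intro T _ _ _ _ B _ _ _ _ θ d hθ hd
  obtain ⟨A, hA, lam, hinj, hlam⟩ := exists_points θ hθ d hd
  exact ⟨A, hA, Fin d, inferInstance, lam, by simp, hinj, hlam⟩

end Fermat.Agent.Two.Eigen
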